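/-
GATE-B / B4 (helper47): the topology hypothesis `hcof` of `GlueRep.exists_glue`.
Mathlib only.

`T` noetherian local, `𝒪 i` (finitely many) local rings, `φ i : T →+* 𝒪 i` local homomorphisms
making `𝒪 i` a FINITE `T`-module, jointly injective.  Then the `𝔪_T`-adic topology of `T` is
induced from the product: `∀ n, ∃ m, (∀ i, φ i t ∈ 𝔪_i ^ m) → t ∈ 𝔪_T ^ n`.

* `exists_pow_maximalIdeal_le_map` : `𝔪_B ^ e ≤ 𝔪_T B` for a finite local `T`-algebra `B`
  (the fibre `B / 𝔪_T B` is artinian).
* `exists_forall_mem_pow_of_injective` : Artin–Rees for an injective linear map `T → M`.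
* `hcof_of_finite` : the statement above.
-/
import Mathlib

set_option autoImplicit false

noncomputable section

namespace Fermat.Agent.GB.B4.GlueCof

open IsLocalRing

/-- For a finite local algebra `B` over a local ring `T` (local structure map) a power of the
maximal ideal of `B` lies in `𝔪_T B`. -/
theorem exists_pow_maximalIdeal_le_map {T B : Type*} [CommRing T] [IsLocalRing T] [CommRing B]
    [IsLocalRing B] [Algebra T B] [Module.Finite T B] [IsLocalHom (algebraMap T B)] :
    ∃ e : ℕ, maximalIdeal B ^ e ≤ (maximalIdeal T).map (algebraMap T B) := by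
  classical
  set J : Ideal B := (maximalIdeal T).map (algebraMap T B) with hJ
  have hJle : J ≤ maximalIdeal B := by
    rw [hJ, Ideal.map_le_iff_le_comap]
    intro t ht
    rw [Ideal.mem_comap, mem_maximalIdeal, mem_nonunits_iff]
    intro hu
    exact ((mem_maximalIdeal t).1 ht) (isUnit_of_map_unit (algebraMap T B) t hu)
  have hJtop : J ≠ ⊤ := fun h => by
    have : maximalIdeal B = ⊤ := top_le_iff.1 (h ▸ hJle)
    exact (maximalIdeal.isMaximal B).ne_top this
  let _ : Field (T ⧸ maximalIdeal T) := Ideal.Quotient.field _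
  have : Module.Finite T (B ⧸ J) := Module.Finite.of_surjective (Ideal.Quotient.mkₐ T J).toLinearMap
    (Ideal.Quotient.mkₐ_surjective T J)
  have : Module.Finite (T ⧸ maximalIdeal T) (B ⧸ J) :=
    Module.Finite.of_restrictScalars_finite T (T ⧸ maximalIdeal T) (B ⧸ J)
  have : IsArtinianRing (B ⧸ J) := IsArtinianRing.of_finite (T ⧸ maximalIdeal T) (B ⧸ J)
  obtain ⟨e, he⟩ := (IsArtinianRing.isNilpotent_jacobson_bot (R := B ⧸ J))
  refine ⟨e, ?_⟩
  have hsurj : Function.Surjective (Ideal.Quotient.mk J) := Ideal.Quotient.mk_surjective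
  have h1 : Ideal.comap (Ideal.Quotient.mk J) (Ideal.jacobson ⊥) = maximalIdeal B := by
    rw [Ideal.comap_jacobson_of_surjective hsurj, ← RingHom.ker_eq_comap_bot, Ideal.mk_ker,
      jacobson_eq_maximalIdeal J hJtop]
  calc maximalIdeal B ^ e
      = (Ideal.comap (Ideal.Quotient.mk J) (Ideal.jacobson ⊥)) ^ e := by rw [h1]
    _ ≤ Ideal.comap (Ideal.Quotient.mk J) ((Ideal.jacobson ⊥) ^ e) := Ideal.le_comap_pow _ _
    _ = Ideal.comap (Ideal.Quotient.mk J) ⊥ := by rw [he]; rfl
    _ = J := by rw [← RingHom.ker_eq_comap_bot, Ideal.mk_ker]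

/-- Artin–Rees for an injective linear map from the ring to a finite module. -/
theorem exists_forall_mem_pow_of_injective {T M : Type*} [CommRing T] [IsNoetherianRing T]
    (I : Ideal T) [AddCommGroup M] [Module T M] [Module.Finite T M] (f : T →ₗ[T] M)
    (hf : Function.Injective f) :
    ∃ k : ℕ, ∀ (n : ℕ) (t : T), f t ∈ (I ^ (n + k) • ⊤ : Submodule T M) → t ∈ I ^ n := by
  obtain ⟨k, hk⟩ := I.exists_pow_inf_eq_pow_smul (LinearMap.range f)
  refine ⟨k, fun n t ht => ?_⟩
  have h1 : f t ∈ (I ^ (n + k) • ⊤ ⊓ LinearMap.range f : Submodule T M) :=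
    ⟨ht, LinearMap.mem_range_self f t⟩
  rw [hk (n + k) (Nat.le_add_left k n), Nat.add_sub_cancel] at h1
  have h2 : (I ^ n • (I ^ k • ⊤ ⊓ LinearMap.range f) : Submodule T M) ≤
      I ^ n • LinearMap.range f := Submodule.smul_mono le_rfl inf_le_right
  have h3 := h2 h1
  rw [LinearMap.range_eq_map, ← Submodule.map_smul''] at h3
  obtain ⟨t', ht', htt'⟩ := h3
  have : t' = t := hf htt'
  rw [← this]
  simpa using ht'

section Main

variable {T : Type*} [CommRing T] [IsLocalRing T] [IsNoetherianRing T] {ι : Type*} [Fintype ι]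
  (𝒪 : ι → Type*) [∀ i, CommRing (𝒪 i)] [∀ i, IsLocalRing (𝒪 i)]

/-- **`hcof`.** The adic topology of a noetherian local ring `T` is induced from a finite product
of finite local `T`-algebras into which `T` embeds. -/
theorem hcof_of_finite (φ : ∀ i, T →+* 𝒪 i) (hloc : ∀ i, IsLocalHom (φ i))
    (hfin : ∀ i, letI := (φ i).toAlgebra; Module.Finite T (𝒪 i))
    (hinj : ∀ t : T, (∀ i, φ i t = 0) → t = 0) :
    ∀ n : ℕ, ∃ m : ℕ, ∀ t : T,
      (∀ i, φ i t ∈ maximalIdeal (𝒪 i) ^ m) → t ∈ maximalIdeal T ^ n := by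
  classical
  let _ : ∀ i, Algebra T (𝒪 i) := fun i => (φ i).toAlgebra
  have : ∀ i, Module.Finite T (𝒪 i) := hfin
  have : ∀ i, IsLocalHom (algebraMap T (𝒪 i)) := hloc
  -- the structure map into the product
  let f : T →ₗ[T] (∀ i, 𝒪 i) :=
    { toFun := fun t i => φ i t
      map_add' := fun a b => by funext i; exact map_add (φ i) a b
      map_smul' := fun a b => by
        funext i
        show φ i (a * b) = a • φ i b
        rw [map_mul, Algebra.smul_def]; rfl }
  have hf : Function.Injective f := by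
    rw [← LinearMap.ker_eq_bot, LinearMap.ker_eq_bot']
    intro t ht
    exact hinj t fun i => congrFun ht i
  obtain ⟨k, hk⟩ := exists_forall_mem_pow_of_injective (maximalIdeal T) f hf
  choose e he using fun i => exists_pow_maximalIdeal_le_map (T := T) (B := 𝒪 i)
  intro n
  refine ⟨(∑ i, e i) * (n + k), fun t ht => hk n t ?_⟩
  -- each coordinate lies in `𝔪_T ^ (n + k) 𝒪 i`
  have hcoord : ∀ i, φ i t ∈ (maximalIdeal T ^ (n + k)).map (algebraMap T (𝒪 i)) := by
    intro i
    have h1 : maximalIdeal (𝒪 i) ^ ((∑ j, e j) * (n + k)) ≤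
        maximalIdeal (𝒪 i) ^ (e i * (n + k)) :=
      Ideal.pow_le_pow_right (Nat.mul_le_mul_right _
        (Finset.single_le_sum (f := e) (fun _ _ => Nat.zero_le _) (Finset.mem_univ i)))
    have h2 : maximalIdeal (𝒪 i) ^ (e i * (n + k)) ≤
        (maximalIdeal T ^ (n + k)).map (algebraMap T (𝒪 i)) := by
      rw [pow_mul, Ideal.map_pow]
      exact Ideal.pow_right_mono (he i) _
    exact h2 (h1 (ht i))
  -- assemble in the product
  have hsum : f t = ∑ i, Pi.single i (φ i t) := by
    funext j
    rw [Finset.sum_apply]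
    simp [f]
  rw [hsum]
  refine Submodule.sum_mem _ fun i _ => ?_
  have h3 : ∀ x ∈ (maximalIdeal T ^ (n + k)).map (algebraMap T (𝒪 i)),
      (Pi.single i x : ∀ j, 𝒪 j) ∈
        (maximalIdeal T ^ (n + k) • ⊤ : Submodule T (∀ j, 𝒪 j)) := by
    intro x hx
    refine Submodule.span_induction (p := fun x _ => (Pi.single i x : ∀ j, 𝒪 j) ∈
      (maximalIdeal T ^ (n + k) • ⊤ : Submodule T (∀ j, 𝒪 j))) ?_ ?_ ?_ ?_ hx
    · rintro _ ⟨a, ha, rfl⟩
      have : (Pi.single i (algebraMap T (𝒪 i) a) : ∀ j, 𝒪 j) = a • Pi.single i (1 : 𝒪 i) := by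
        rw [← Pi.single_smul, Algebra.smul_def, mul_one]
      rw [this]
      exact Submodule.smul_mem_smul ha Submodule.mem_top
    · rw [Pi.single_zero]; exact Submodule.zero_mem _
    · intro x y _ _ hx hy
      rw [Pi.single_add]; exact Submodule.add_mem _ hx hy
    · intro b x _ hx
      have : (Pi.single i (b • x) : ∀ j, 𝒪 j) = Pi.single i b * Pi.single i x := by
        rw [smul_eq_mul, Pi.single_mul]
      rw [this]
      -- multiplication by an element of the product preserves `I • ⊤`
      refine Submodule.smul_induction_on hx ?_ ?_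
      · intro a ha y _
        have : (Pi.single i b : ∀ j, 𝒪 j) * a • y = a • (Pi.single i b * y) := by
          rw [mul_smul_comm]
        rw [this]
        exact Submodule.smul_mem_smul ha Submodule.mem_top
      · intro y z hy hz
        rw [mul_add]; exact Submodule.add_mem _ hy hz
  exact h3 _ (hcoord i)

end Main

end Fermat.Agent.GB.B4.GlueCof
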