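/-
GATE-B / B4 (helper47): gluing of two-dimensional representations over a semi-local overring
(Carayol / Nyssen / Rouquier descent, odd case).  Mathlib + `GH/S32/GmaCore.IsUnits` only.

`T` a commutative ring in which `2` is a unit, `φ : T →+* T'` injective (`T'` ANY commutative ring,
e.g. a finite product of discrete valuation rings), `r : G →* M₂(T')` with traces in `T`
(`φ (τ g) = tr (r g)`), an involution `c ∈ G` with `τ c = 0` (complex conjugation, odd case) and a
unit certificate of irreducibility `τ(g₀h₀) − τ(g₀ch₀) + τ(cg₀h₀) − τ(cg₀ch₀) ∈ Tˣ`.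
THEN the `T`-span of `r(G)` is a matrix algebra over `T`:

* `exists_rep_of_traces` : `∃ Φ : M₂(T) →+* M₂(T')` (injective, `φ`-semilinear, trace compatible)
  and `ρ : G →* M₂(T)` with `Φ (ρ g) = r g`, `tr (ρ g) = τ g`; moreover the entries of `M` are
  controlled by the entries of `Φ M` (adic continuity / unramifiedness transfer).

No idempotent lifting, no Hensel, no Wedderburn: the idempotent is `(1 + r c)/2`.
-/
import Mathlib
import Fermat.Agent.GH.S32.GmaCore

set_option autoImplicit false

noncomputable section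

namespace Fermat.Agent.GB.B4.GlueCore

open Matrix Fermat.Agent.GH.S32.GmaCore

/-! ### `2 × 2` matrix identities over a commutative ring -/

section Mat

variable {A : Type*} [CommRing A]

/-- polarised Cayley–Hamilton for `2 × 2` matrices -/
theorem polar_ch (X Y : Matrix (Fin 2) (Fin 2) A) :
    X * Y + Y * X = X.trace • Y + Y.trace • X
      + ((X * Y).trace - X.trace * Y.trace) • (1 : Matrix (Fin 2) (Fin 2) A) := by
  ext i j
  fin_cases i <;> fin_cases j <;>
    simp [Matrix.mul_apply, Fin.sum_univ_two, Matrix.trace_fin_two] <;> ring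

/-- a rank-one idempotent cuts out a line: `e z e = tr(e z) e` -/
theorem corner {e : Matrix (Fin 2) (Fin 2) A} (he : e * e = e) (hte : e.trace = 1)
    (z : Matrix (Fin 2) (Fin 2) A) : e * z * e = (e * z).trace • e := by
  have hw1 : e * (e * z * e) = e * z * e := by simp only [← mul_assoc, he]
  have hw2 : e * z * e * e = e * z * e := by rw [mul_assoc, he]
  have h := polar_ch e (e * z * e)
  rw [hw1, hw2, hte] at h
  have htr : (e * z * e).trace = (e * z).trace := by
    rw [Matrix.trace_mul_comm, ← mul_assoc, he]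
  rw [one_smul, one_mul, sub_self, zero_smul, add_zero] at h
  have h' := add_left_cancel h
  rw [h', htr]

end Mat

/-! ### The idempotents attached to an involution of trace zero -/

section Idem

variable {A : Type*} [CommRing A] (η : A) (s : Matrix (Fin 2) (Fin 2) A)

/-- `e_ε = η (1 + ε s)`; for `η = 1/2`, `ε = ±1`, `s² = 1` these are the two idempotents -/
def idem (ε : A) : Matrix (Fin 2) (Fin 2) A := η • (1 + ε • s)

variable {η s}

theorem idem_add (hη : η * 2 = 1) : idem η s 1 + idem η s (-1) = 1 := by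
  unfold idem
  rw [one_smul, neg_smul, one_smul, ← smul_add, add_add_add_comm, add_neg_cancel, add_zero,
    ← two_smul A (1 : Matrix (Fin 2) (Fin 2) A), smul_smul, hη, one_smul]

theorem idem_mul_idem (hs : s * s = 1) (ε ε' : A) (hε : ε * ε = 1) :
    idem η s ε * idem η s ε' = (η * (1 + ε * ε')) • idem η s ε := by
  unfold idem
  have h1 : (1 + ε • s) * (1 + ε' • s) = (1 + ε * ε') • (1 + ε • s) := by
    rw [add_mul, mul_add, mul_add, one_mul, mul_one, one_mul, smul_mul_smul_comm, hs, add_smul,
      one_smul, smul_add, smul_smul, mul_assoc, mul_comm ε' ε, ← mul_assoc, hε, one_mul]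
    rw [← Algebra.algebraMap_eq_smul_one]
    simp only [Algebra.algebraMap_eq_smul_one]
    abel
  rw [smul_mul_smul_comm, h1, smul_smul, smul_smul]
  congr 1
  ring

theorem idem_mul_self (hη : η * 2 = 1) (hs : s * s = 1) (ε : A) (hε : ε * ε = 1) :
    idem η s ε * idem η s ε = idem η s ε := by
  rw [idem_mul_idem hs ε ε hε, hε, one_add_one_eq_two, hη, one_smul]

theorem idem_mul_neg (hs : s * s = 1) :
    idem η s 1 * idem η s (-1) = 0 := by
  rw [idem_mul_idem hs 1 (-1) (one_mul 1), one_mul, add_neg_cancel, mul_zero, zero_smul]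

theorem idem_neg_mul (hs : s * s = 1) :
    idem η s (-1) * idem η s 1 = 0 := by
  rw [idem_mul_idem hs (-1) 1 (by ring), neg_one_mul, add_neg_cancel, mul_zero, zero_smul]

theorem trace_idem (hη : η * 2 = 1) (hts : s.trace = 0) (ε : A) : (idem η s ε).trace = 1 := by
  unfold idem
  rw [Matrix.trace_smul, Matrix.trace_add, Matrix.trace_smul, hts, smul_zero, add_zero,
    Matrix.trace_one, Fintype.card_fin, smul_eq_mul, Nat.cast_ofNat, hη]

theorem idem_mul_mul_idem_mul (ε₁ ε₂ : A) (ra rb : Matrix (Fin 2) (Fin 2) A) :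
    idem η s ε₁ * ra * idem η s ε₂ * rb = (η * η) • (ra * rb + ε₂ • (ra * s * rb)
      + ε₁ • (s * ra * rb) + (ε₁ * ε₂) • (s * ra * s * rb)) := by
  unfold idem
  simp only [smul_mul_assoc, mul_smul_comm, add_mul, mul_add, one_mul, mul_one, smul_add,
    smul_smul, mul_assoc]
  module

end Idem

/-! ### The gluing theorem -/

section Rep

variable {T T' : Type*} [CommRing T] [CommRing T'] (φ : T →+* T')
  {G : Type*} [Group G] (r : G →* Matrix (Fin 2) (Fin 2) T') (τ : G → T)
  (hτ : ∀ g, φ (τ g) = (r g).trace) (c : G) (h : T)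

include hτ in
/-- the trace of `e_ε₁ r(a) e_ε₂ r(b)` is the image of an explicit element of `T` -/
theorem trace_idem_mul (ε₁ ε₂ : T) (a b : G) :
    (idem (φ h) (r c) (φ ε₁) * r a * idem (φ h) (r c) (φ ε₂) * r b).trace =
      φ (h * h * (τ (a * b) + ε₂ * τ (a * c * b) + ε₁ * τ (c * a * b)
        + ε₁ * ε₂ * τ (c * a * c * b))) := by
  rw [idem_mul_mul_idem_mul]
  simp only [Matrix.trace_smul, Matrix.trace_add, ← map_mul r, ← hτ, smul_eq_mul, map_mul φ,
    map_add φ]

/-- the trace of a product with a matrix all of whose entries lie in an ideal -/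
theorem trace_mul_mem (J' : Ideal T') (W N : Matrix (Fin 2) (Fin 2) T')
    (hN : ∀ i j, N i j ∈ J') : (W * N).trace ∈ J' := by
  rw [Matrix.trace_fin_two, Matrix.mul_apply, Matrix.mul_apply, Fin.sum_univ_two,
    Fin.sum_univ_two]
  exact J'.add_mem (J'.add_mem (J'.mul_mem_left _ (hN _ _)) (J'.mul_mem_left _ (hN _ _)))
    (J'.add_mem (J'.mul_mem_left _ (hN _ _)) (J'.mul_mem_left _ (hN _ _)))

/-- **Gluing (Carayol descent over an arbitrary overring, odd case).** -/
theorem exists_rep_of_traces (hφ : Function.Injective φ) (h2 : IsUnit (2 : T))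
    (hτ : ∀ g, φ (τ g) = (r g).trace) (c : G) (hc : c * c = 1) (hτc : τ c = 0) (g₀ h₀ : G)
    (hirr : IsUnit (τ (g₀ * h₀) - τ (g₀ * c * h₀) + τ (c * g₀ * h₀) - τ (c * g₀ * c * h₀))) :
    ∃ (Φ : Matrix (Fin 2) (Fin 2) T →+* Matrix (Fin 2) (Fin 2) T')
      (ρ : G →* Matrix (Fin 2) (Fin 2) T),
      (∀ M, (Φ M).trace = φ M.trace) ∧ (∀ t M, Φ (t • M) = φ t • Φ M) ∧
      Function.Injective Φ ∧ (∀ g, Φ (ρ g) = r g) ∧ (∀ g, (ρ g).trace = τ g) ∧
      ∀ (J' : Ideal T') (M : Matrix (Fin 2) (Fin 2) T),
        (∀ i j, Φ M i j ∈ J') → ∀ i j, φ (M i j) ∈ J' := by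
  classical
  obtain ⟨h, hh⟩ : ∃ h : T, h * 2 = 1 := by
    obtain ⟨u, hu⟩ := h2
    exact ⟨((u⁻¹ : Tˣ) : T), by rw [← hu]; exact u.inv_mul⟩
  have hη : φ h * 2 = 1 := by
    have : φ (h * 2) = 1 := by rw [hh, map_one]
    rwa [map_mul, map_ofNat] at this
  have hs : r c * r c = 1 := by rw [← map_mul, hc, map_one]
  have hts : (r c).trace = 0 := by rw [← hτ, hτc, map_zero]
  set e : Matrix (Fin 2) (Fin 2) T' := idem (φ h) (r c) 1 with he_def
  set e' : Matrix (Fin 2) (Fin 2) T' := idem (φ h) (r c) (-1) with he'_def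
  have hee : e * e = e := idem_mul_self hη hs 1 (one_mul 1)
  have he'e' : e' * e' = e' := idem_mul_self hη hs (-1) (by ring)
  have hee' : e * e' = 0 := idem_mul_neg hs
  have he'e : e' * e = 0 := idem_neg_mul hs
  have hadd : e + e' = 1 := idem_add hη
  have hte : e.trace = 1 := trace_idem hη hts 1
  have hte' : e'.trace = 1 := trace_idem hη hts (-1)
  -- the unit
  obtain ⟨ξi, hξi⟩ := hirr.exists_right_inv
  set ξ : T := τ (g₀ * h₀) - τ (g₀ * c * h₀) + τ (c * g₀ * h₀) - τ (c * g₀ * c * h₀) with hξ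
  set u : T := h * h * ξ with hu
  set v : T := 2 * 2 * ξi with hv
  have huv : v * u = 1 := by
    calc v * u = (h * 2) * (h * 2) * (ξ * ξi) := by rw [hu, hv]; ring
      _ = 1 := by rw [hh, hξi]; ring
  -- trace formulas
  have hP : ∀ a b, (e * r a * e' * r b).trace =
      φ (h * h * (τ (a * b) - τ (a * c * b) + τ (c * a * b) - τ (c * a * c * b))) := by
    intro a b
    have h1 := trace_idem_mul φ r τ hτ c h 1 (-1) a b
    rw [map_one, map_neg, map_one] at h1
    rw [he_def, he'_def, h1]
    congr 1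
    ring
  have hQ : ∀ a b, (e' * r a * e * r b).trace =
      φ (h * h * (τ (a * b) + τ (a * c * b) - τ (c * a * b) - τ (c * a * c * b))) := by
    intro a b
    have h1 := trace_idem_mul φ r τ hτ c h (-1) 1 a b
    rw [map_one, map_neg, map_one] at h1
    rw [he_def, he'_def, h1]
    congr 1
    ring
  have hE : ∀ a, (e * r a).trace = φ (h * (τ a + τ (c * a))) := by
    intro a
    rw [he_def, idem, one_smul, smul_mul_assoc, add_mul, one_mul, Matrix.trace_smul,
      Matrix.trace_add, ← map_mul r, ← hτ, ← hτ, smul_eq_mul, ← map_add, ← map_mul]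
  have hE' : ∀ a, (e' * r a).trace = φ (h * (τ a - τ (c * a))) := by
    intro a
    rw [he'_def, idem, neg_smul, one_smul, smul_mul_assoc, add_mul, one_mul, neg_mul,
      Matrix.trace_smul, Matrix.trace_add, Matrix.trace_neg, ← map_mul r, ← hτ, ← hτ, smul_eq_mul,
      ← sub_eq_add_neg, ← map_sub, ← map_mul]
  -- the off-diagonal units
  set x₀ : Matrix (Fin 2) (Fin 2) T' := e * r g₀ * e' with hx₀
  set y : Matrix (Fin 2) (Fin 2) T' := e' * r h₀ * e with hy
  set x : Matrix (Fin 2) (Fin 2) T' := φ v • x₀ with hx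
  have hx₀y : x₀ * y = φ u • e := by
    have h1 : x₀ * y = e * (r g₀ * e' * r h₀) * e := by
      rw [hx₀, hy]
      simp only [mul_assoc]
      rw [← mul_assoc e' e', he'e']
    rw [h1, corner hee hte]
    congr 1
    rw [← hP g₀ h₀]
    simp only [mul_assoc]
  have hyx₀ : y * x₀ = φ u • e' := by
    have h1 : y * x₀ = e' * (r h₀ * e * r g₀) * e' := by
      rw [hx₀, hy]
      simp only [mul_assoc]
      rw [← mul_assoc e e, hee]
    have h2 : (y * x₀).trace = φ u := by
      rw [Matrix.trace_mul_comm, hx₀y, Matrix.trace_smul, hte, smul_eq_mul, mul_one]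
    rw [h1, corner he'e' hte'] at h2 ⊢
    rw [Matrix.trace_smul, hte', smul_eq_mul, mul_one] at h2
    rw [h2]
  have hφvu : φ v * φ u = 1 := by rw [← map_mul, huv, map_one]
  have hxy : x * y = e := by
    rw [hx, smul_mul_assoc, hx₀y, smul_smul, hφvu, one_smul]
  have hyx : y * x = e' := by
    rw [hx, mul_smul_comm, hyx₀, smul_smul, hφvu, one_smul]
  have hex : e * x = x := by
    rw [hx, mul_smul_comm, hx₀, ← mul_assoc, ← mul_assoc, hee]
  have hxe' : x * e' = x := by
    rw [hx, smul_mul_assoc, hx₀, mul_assoc, he'e']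
  have he'y : e' * y = y := by
    rw [hy, ← mul_assoc, ← mul_assoc, he'e']
  have hye : y * e = y := by
    rw [hy, mul_assoc, hee]
  have hU : IsUnits e x y e' :=
    { ee := hee, e'e' := he'e', add := hadd, ee' := hee', e'e := he'e, xy := hxy, yx := hyx,
      ex := hex, xe' := hxe', e'y := he'y, ye := hye }
  have htx : x.trace = 0 := by
    rw [← hex, Matrix.trace_mul_comm, ← hxe', mul_assoc, he'e, mul_zero, Matrix.trace_zero]
  have hty : y.trace = 0 := by
    rw [← he'y, Matrix.trace_mul_comm, ← hye, mul_assoc, hee', mul_zero, Matrix.trace_zero]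
  -- the algebra map
  let _ : Algebra T T' := φ.toAlgebra
  have hsm : ∀ (t : T) (N : Matrix (Fin 2) (Fin 2) T'), t • N = φ t • N := by
    intro t N
    ext i j
    rw [Matrix.smul_apply, Matrix.smul_apply, Algebra.smul_def, smul_eq_mul]
    rfl
  let Φa : Matrix (Fin 2) (Fin 2) T →ₐ[T] Matrix (Fin 2) (Fin 2) T' := unitsAlgHom (R := T) hU
  have hΦ : ∀ M : Matrix (Fin 2) (Fin 2) T,
      Φa M = φ (M 0 0) • e + φ (M 0 1) • x + φ (M 1 0) • y + φ (M 1 1) • e' := by
    intro M
    show unitsAlgHom (R := T) hU M = _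
    rw [unitsAlgHom_apply, hsm, hsm, hsm, hsm]
  -- coordinates
  have hc00 : ∀ M, (e * Φa M).trace = φ (M 0 0) := by
    intro M
    rw [hΦ]
    simp only [mul_add, mul_smul_comm, hee, hex, hU.ey, hee', smul_zero, add_zero,
      Matrix.trace_add, Matrix.trace_smul, hte, htx, smul_eq_mul, mul_one, mul_zero]
  have hc11 : ∀ M, (e' * Φa M).trace = φ (M 1 1) := by
    intro M
    rw [hΦ]
    simp only [mul_add, mul_smul_comm, he'e, hU.e'x, he'y, he'e', smul_zero, add_zero, zero_add,
      Matrix.trace_add, Matrix.trace_smul, hte', hty, smul_eq_mul, mul_one, mul_zero]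
  have hc01 : ∀ M, (y * Φa M).trace = φ (M 0 1) := by
    intro M
    rw [hΦ]
    simp only [mul_add, mul_smul_comm, hye, hyx, hU.yy, hU.ye', smul_zero, add_zero, zero_add,
      Matrix.trace_add, Matrix.trace_smul, hte', hty, smul_eq_mul, mul_one, mul_zero]
  have hc10 : ∀ M, (x * Φa M).trace = φ (M 1 0) := by
    intro M
    rw [hΦ]
    simp only [mul_add, mul_smul_comm, hU.xe, hU.xx, hxy, hxe', smul_zero, add_zero, zero_add,
      Matrix.trace_add, Matrix.trace_smul, hte, htx, smul_eq_mul, mul_one, mul_zero]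
  have hinjΦ : Function.Injective Φa := by
    rw [injective_iff_map_eq_zero]
    intro M hM
    have h00 := hc00 M
    have h11 := hc11 M
    have h01 := hc01 M
    have h10 := hc10 M
    rw [hM, mul_zero, Matrix.trace_zero] at h00 h11 h01 h10
    have hM00 : M 0 0 = 0 := hφ (by rw [map_zero]; exact h00.symm)
    have hM01 : M 0 1 = 0 := hφ (by rw [map_zero]; exact h01.symm)
    have hM10 : M 1 0 = 0 := hφ (by rw [map_zero]; exact h10.symm)
    have hM11 : M 1 1 = 0 := hφ (by rw [map_zero]; exact h11.symm)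
    ext i j
    fin_cases i <;> fin_cases j
    · exact hM00
    · exact hM01
    · exact hM10
    · exact hM11
  -- every matrix over `T'` is a combination of the units
  have hdec : ∀ N : Matrix (Fin 2) (Fin 2) T',
      N = (e * N).trace • e + (y * N).trace • x + (x * N).trace • y + (e' * N).trace • e' := by
    intro N
    have h1 : e * N * e = (e * N).trace • e := corner hee hte N
    have h4 : e' * N * e' = (e' * N).trace • e' := corner he'e' hte' N
    have h2 : e * N * e' = (y * N).trace • x := by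
      have h21 : e * N * y = (y * N).trace • e := by
        have : e * N * y = e * (N * y) * e := by
          rw [mul_assoc e N y, mul_assoc e (N * y) e, mul_assoc N y e, hye]
        rw [this, corner hee hte]
        congr 1
        rw [← mul_assoc, Matrix.trace_mul_comm, ← mul_assoc, hye]
      rw [← hyx, ← mul_assoc, h21, smul_mul_assoc, hex]
    have h3 : e' * N * e = (x * N).trace • y := by
      have h31 : e' * N * x = (x * N).trace • e' := by
        have : e' * N * x = e' * (N * x) * e' := by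
          rw [mul_assoc e' N x, mul_assoc e' (N * x) e', mul_assoc N x e', hxe']
        rw [this, corner he'e' hte']
        congr 1
        rw [← mul_assoc, Matrix.trace_mul_comm, ← mul_assoc, hxe']
      rw [← hxy, ← mul_assoc, h31, smul_mul_assoc, he'y]
    calc N = (e + e') * N * (e + e') := by rw [hadd, one_mul, mul_one]
      _ = e * N * e + e * N * e' + e' * N * e + e' * N * e' := by
          rw [add_mul, add_mul, mul_add, mul_add]; abel
      _ = _ := by rw [h1, h2, h3, h4]
  -- the descended matrices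
  let ρf : G → Matrix (Fin 2) (Fin 2) T := fun g =>
    !![h * (τ g + τ (c * g)),
       h * h * (τ (h₀ * g) + τ (h₀ * c * g) - τ (c * h₀ * g) - τ (c * h₀ * c * g));
       v * (h * h * (τ (g₀ * g) - τ (g₀ * c * g) + τ (c * g₀ * g) - τ (c * g₀ * c * g))),
       h * (τ g - τ (c * g))]
  have hρf : ∀ g, Φa (ρf g) = r g := by
    intro g
    rw [hΦ, hdec (r g)]
    have e1 : (y * r g).trace = φ (ρf g 0 1) := by
      rw [hy, hQ h₀ g]
      rfl
    have e2 : (x * r g).trace = φ (ρf g 1 0) := by
      rw [hx, hx₀, smul_mul_assoc, Matrix.trace_smul, hP g₀ g, smul_eq_mul, ← map_mul]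
      rfl
    rw [e1, e2, hE, hE']
    rfl
  let ρ : G →* Matrix (Fin 2) (Fin 2) T :=
    { toFun := ρf
      map_one' := hinjΦ (by rw [hρf, map_one, map_one])
      map_mul' := fun g g' => hinjΦ (by rw [hρf, map_mul, map_mul, hρf, hρf]) }
  have htrΦ : ∀ M, (Φa M).trace = φ M.trace := by
    intro M
    rw [hΦ]
    simp only [Matrix.trace_add, Matrix.trace_smul, hte, hte', htx, hty, smul_eq_mul, mul_one,
      mul_zero, add_zero, Matrix.trace_fin_two, map_add]
  refine ⟨Φa.toRingHom, ρ, htrΦ, ?_, hinjΦ, hρf, ?_, ?_⟩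
  · intro t M
    show Φa (t • M) = φ t • Φa M
    rw [map_smul, hsm]
  · intro g
    apply hφ
    rw [← htrΦ]
    show (Φa (ρf g)).trace = _
    rw [hρf, hτ]
  · intro J' M hM i j
    have key : ∀ W : Matrix (Fin 2) (Fin 2) T', (W * Φa M).trace ∈ J' :=
      fun W => trace_mul_mem J' W _ hM
    fin_cases i <;> fin_cases j
    · show φ (M 0 0) ∈ J'
      rw [← hc00]; exact key e
    · show φ (M 0 1) ∈ J'
      rw [← hc01]; exact key y
    · show φ (M 1 0) ∈ J'
      rw [← hc10]; exact key x
    · show φ (M 1 1) ∈ J'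
      rw [← hc11]; exact key e'

end Rep

end Fermat.Agent.GB.B4.GlueCore
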