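/-
GATE-B / B4 (helper47): gluing of a finite family of `GaloisRepAdic`s over local rings `𝒪 i`
into ONE `GaloisRepAdic T` over a local ring `T ↪ ∏ 𝒪 i` containing all the traces
(Carayol / Nyssen / Rouquier, odd case).

* `exists_isUnit_cert` : the unit certificate of `GlueCore.exists_rep_of_traces` from
  "the matrices span `M₂(A)`" over ONE local ring `A` (i.e. from residual absolute irreducibility).
* `piRep` : the product representation in `M₂(∏ 𝒪 i)`.
* `exists_glue` : the gluing theorem on the prelude structures.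
-/
import Fermat.Agent.GB.B4.GlueCore
import Fermat.Agent.S53_helper35.MatDict
import Fermat.Agent.S53_helper36.Lifts

set_option autoImplicit false

noncomputable section

namespace Fermat.Agent.GB.B4.GlueRep

open Matrix IsLocalRing Fermat.Agent.GB.B4.GlueCore Fermat.Agent.S53_helper35
  Fermat.Agent.S53_helper36

/-! ### The unit certificate -/

section Cert

/-- entries of `a * single i j 1 * b * single l k 1` -/
theorem trace_mul_single_mul_single {A : Type*} [CommRing A]
    (a b : Matrix (Fin 2) (Fin 2) A) (i j l k : Fin 2) :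
    (a * Matrix.single i j (1 : A) * b * Matrix.single l k (1 : A)).trace = a k i * b j l := by
  rw [Matrix.trace_mul_comm, ← mul_assoc, ← mul_assoc]
  simp [Matrix.trace_fin_two, Matrix.mul_apply, Fin.sum_univ_two, Matrix.single_apply]
  fin_cases i <;> fin_cases j <;> fin_cases l <;> fin_cases k <;> simp

variable {T A : Type*} [CommRing T] [IsLocalRing T] [CommRing A] [IsLocalRing A]
  (φ : T →+* A) [IsLocalHom φ] {G : Type*} [Group G]
  (r : G →* Matrix (Fin 2) (Fin 2) A) (τ : G → T)

include φ in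
/-- **The certificate.** If the matrices `r g` span `M₂(A)` over a local ring `A` receiving `T`
by a local homomorphism, some `τ(gh) − τ(gch) + τ(cgh) − τ(cgch)` is a unit of `T`. -/
theorem exists_isUnit_cert (h2 : IsUnit (2 : T)) (hτ : ∀ g, φ (τ g) = (r g).trace) (c : G)
    (hc : c * c = 1) (hτc : τ c = 0)
    (hspan : Submodule.span A (Set.range r) = ⊤) :
    ∃ g₀ h₀ : G,
      IsUnit (τ (g₀ * h₀) - τ (g₀ * c * h₀) + τ (c * g₀ * h₀) - τ (c * g₀ * c * h₀)) := by
  classical
  by_contra hcon
  simp only [not_exists] at hcon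
  obtain ⟨h, hh⟩ : ∃ h : T, h * 2 = 1 := by
    obtain ⟨u, hu⟩ := h2
    exact ⟨((u⁻¹ : Tˣ) : T), by rw [← hu]; exact u.inv_mul⟩
  have hη : φ h * 2 = 1 := by
    have : φ (h * 2) = 1 := by rw [hh, map_one]
    rwa [map_mul, map_ofNat] at this
  have hs : r c * r c = 1 := by rw [← map_mul, hc, map_one]
  have hts : (r c).trace = 0 := by rw [← hτ, hτc, map_zero]
  set e : Matrix (Fin 2) (Fin 2) A := idem (φ h) (r c) 1 with he_def
  set e' : Matrix (Fin 2) (Fin 2) A := idem (φ h) (r c) (-1) with he'_def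
  have hte : e.trace = 1 := trace_idem hη hts 1
  have hte' : e'.trace = 1 := trace_idem hη hts (-1)
  -- all the pairings lie in the maximal ideal
  have h0 : ∀ g g', (e * r g * e' * r g').trace ∈ maximalIdeal A := by
    intro g g'
    have h1 := trace_idem_mul φ r τ hτ c h 1 (-1) g g'
    rw [map_one, map_neg, map_one] at h1
    rw [he_def, he'_def, h1]
    have h3 : τ (g * g') + -1 * τ (g * c * g') + 1 * τ (c * g * g')
        + 1 * -1 * τ (c * g * c * g')
        = τ (g * g') - τ (g * c * g') + τ (c * g * g') - τ (c * g * c * g') := by ring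
    rw [h3, map_mul]
    refine Ideal.mul_mem_left _ _ ?_
    have h4 := hcon g g'
    have h5 : τ (g * g') - τ (g * c * g') + τ (c * g * g') - τ (c * g * c * g') ∈
        maximalIdeal T := (mem_maximalIdeal _).2 h4
    exact (mem_maximalIdeal _).2 (fun hu => h4 (isUnit_of_map_unit φ _ hu))
  -- extend to all matrices by linearity
  have h1 : ∀ (X : Matrix (Fin 2) (Fin 2) A) g', (e * X * e' * r g').trace ∈ maximalIdeal A := by
    intro X g'
    have hX : X ∈ Submodule.span A (Set.range r) := by rw [hspan]; exact Submodule.mem_top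
    induction hX using Submodule.span_induction with
    | mem x hx =>
      obtain ⟨g, rfl⟩ := hx
      exact h0 g g'
    | zero => simp
    | add x y _ _ hx hy =>
      rw [mul_add, add_mul, add_mul, Matrix.trace_add]
      exact Ideal.add_mem _ hx hy
    | smul a x _ hx =>
      rw [mul_smul_comm, smul_mul_assoc, smul_mul_assoc, Matrix.trace_smul, smul_eq_mul]
      exact Ideal.mul_mem_left _ _ hx
  have h2' : ∀ (X Y : Matrix (Fin 2) (Fin 2) A), (e * X * e' * Y).trace ∈ maximalIdeal A := by
    intro X Y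
    have hY : Y ∈ Submodule.span A (Set.range r) := by rw [hspan]; exact Submodule.mem_top
    induction hY using Submodule.span_induction with
    | mem y hy =>
      obtain ⟨g, rfl⟩ := hy
      exact h1 X g
    | zero => simp
    | add x y _ _ hx hy =>
      rw [mul_add, Matrix.trace_add]
      exact Ideal.add_mem _ hx hy
    | smul a x _ hx =>
      rw [mul_smul_comm, Matrix.trace_smul, smul_eq_mul]
      exact Ideal.mul_mem_left _ _ hx
  have h3 : ∀ i j l k : Fin 2, e k i * e' j l ∈ maximalIdeal A := by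
    intro i j l k
    rw [← trace_mul_single_mul_single]
    exact h2' _ _
  -- some diagonal entry of `e` is a unit
  have h4 : ∃ a : Fin 2, IsUnit (e a a) := by
    by_contra hno
    simp only [not_exists] at hno
    have : e.trace ∈ maximalIdeal A := by
      rw [Matrix.trace_fin_two]
      exact Ideal.add_mem _ ((mem_maximalIdeal _).2 (hno 0)) ((mem_maximalIdeal _).2 (hno 1))
    rw [hte] at this
    exact (mem_maximalIdeal _).1 this isUnit_one
  obtain ⟨a, ha⟩ := h4
  have h5 : ∀ j l : Fin 2, e' j l ∈ maximalIdeal A := by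
    intro j l
    have := h3 a j l a
    rcases (Ideal.IsPrime.mem_or_mem (maximalIdeal.isMaximal A).isPrime this) with h | h
    · exact absurd ha ((mem_maximalIdeal _).1 h)
    · exact h
  have : e'.trace ∈ maximalIdeal A := by
    rw [Matrix.trace_fin_two]
    exact Ideal.add_mem _ (h5 0 0) (h5 1 1)
  rw [hte'] at this
  exact (mem_maximalIdeal _).1 this isUnit_one

end Cert

/-! ### The product representation -/

section Pi

variable {ι : Type*} {𝒪 : ι → Type*} [∀ i, CommRing (𝒪 i)] {G : Type*} [Group G]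

/-- the product of matrix representations, as a representation over the product ring -/
def piRep (r : ∀ i, G →* Matrix (Fin 2) (Fin 2) (𝒪 i)) :
    G →* Matrix (Fin 2) (Fin 2) (∀ i, 𝒪 i) where
  toFun g := Matrix.of fun a b i => r i g a b
  map_one' := by
    ext a b i
    simp only [Matrix.of_apply, map_one, Matrix.one_apply]
    split_ifs <;> rfl
  map_mul' g g' := by
    ext a b i
    simp only [Matrix.of_apply, map_mul, Matrix.mul_apply, Finset.sum_apply, Pi.mul_apply]

theorem piRep_apply (r : ∀ i, G →* Matrix (Fin 2) (Fin 2) (𝒪 i)) (g : G) (a b : Fin 2) (i : ι) :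
    piRep r g a b i = r i g a b := rfl

theorem trace_piRep (r : ∀ i, G →* Matrix (Fin 2) (Fin 2) (𝒪 i)) (g : G) (i : ι) :
    (piRep r g).trace i = (r i g).trace := by
  rw [Matrix.trace_fin_two, Matrix.trace_fin_two]
  rfl

end Pi

/-! ### Gluing on the prelude structures -/

section Glue

variable {T : Type} [CommRing T] [IsLocalRing T] {ι : Type} [Fintype ι] (𝒪 : ι → Type)
  [∀ i, CommRing (𝒪 i)] [∀ i, IsLocalRing (𝒪 i)]

theorem trace_toMat {A : Type} [CommRing A] [IsLocalRing A] (ρ : GaloisRepAdic A)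
    (b : Module.Basis (Fin 2) A ρ.V) (σ : GQ) : (toMat ρ b σ).trace = ρ.trace σ := by
  rw [toMat_apply]
  exact (LinearMap.trace_eq_matrix_trace A b (ρ.ρ σ)).symm

/-- the matrices of a residually absolutely irreducible representation span `M₂` -/
theorem span_toMat_eq_top {A : Type} [CommRing A] [IsLocalRing A] (ρ : GaloisRepAdic A)
    (habs : ρ.residual.IsAbsolutelyIrreducible) (b : Module.Basis (Fin 2) A ρ.V) :
    Submodule.span A (Set.range (toMat ρ b)) = ⊤ := by
  have h1 : Submodule.span (ResidueField A)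
      (Set.range fun σ : GQ => (ρ.ρ σ).baseChange (ResidueField A)) = ⊤ :=
    ResidualGaloisRep_span_eq_top ρ.residual habs
  have hspan : Submodule.span A (Set.range fun σ : GQ => ρ.ρ σ) = ⊤ :=
    end_span_eq_top_of_residual (fun σ : GQ => ρ.ρ σ) h1
  let e : Module.End A ρ.V →ₗ[A] Matrix (Fin 2) (Fin 2) A :=
    ((LinearMap.toMatrixAlgEquiv b : Module.End A ρ.V ≃ₐ[A]
      Matrix (Fin 2) (Fin 2) A).toLinearEquiv : Module.End A ρ.V →ₗ[A] Matrix (Fin 2) (Fin 2) A)
  have he : Function.Surjective e :=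
    (LinearMap.toMatrixAlgEquiv b : Module.End A ρ.V ≃ₐ[A]
      Matrix (Fin 2) (Fin 2) A).toLinearEquiv.surjective
  have hrange : Set.range (toMat ρ b) = e '' Set.range (fun σ : GQ => ρ.ρ σ) := by
    ext M
    constructor
    · rintro ⟨σ, rfl⟩
      exact ⟨ρ.ρ σ, ⟨σ, rfl⟩, rfl⟩
    · rintro ⟨_, ⟨σ, rfl⟩, rfl⟩
      exact ⟨σ, rfl⟩
  have h2 := Submodule.map_span e (Set.range fun σ : GQ => ρ.ρ σ)
  rw [hspan, Submodule.map_top, LinearMap.range_eq_top.mpr he] at h2
  rw [hrange]
  exact h2.symm

/-- **Gluing.** `T` local with `2 ∈ Tˣ`, local homomorphisms `φ i : T → 𝒪 i` (finitely many,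
jointly injective, inducing the topology of `T`), representations `ρ i` over `𝒪 i` whose traces
are the images of ONE function `τ : G_ℚ → T`, an involution `c` with `τ c = 0` and ONE `ρ i₀`
residually absolutely irreducible.  THEN there is a `GaloisRepAdic T` with trace `τ`; it is
trivial at every `σ` at which all the `ρ i` are trivial. -/
theorem exists_glue (φ : ∀ i, T →+* 𝒪 i) (hloc : ∀ i, IsLocalHom (φ i))
    (hinj : ∀ t : T, (∀ i, φ i t = 0) → t = 0) (h2 : IsUnit (2 : T))
    (ρ : ∀ i, GaloisRepAdic (𝒪 i)) (τ : GQ → T) (hτ : ∀ i σ, φ i (τ σ) = (ρ i).trace σ)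
    (c : GQ) (hc : c * c = 1) (hτc : τ c = 0)
    (i₀ : ι) (habs : (ρ i₀).residual.IsAbsolutelyIrreducible)
    (hcof : ∀ n : ℕ, ∃ m : ℕ, ∀ t : T,
      (∀ i, φ i t ∈ maximalIdeal (𝒪 i) ^ m) → t ∈ maximalIdeal T ^ n) :
    ∃ ρT : GaloisRepAdic T, (∀ σ, ρT.trace σ = τ σ) ∧
      (∀ σ, (∀ i, (ρ i).ρ σ = 1) → ρT.ρ σ = 1) := by
  classical
  -- matrices
  let r : ∀ i, GQ →* Matrix (Fin 2) (Fin 2) (𝒪 i) := fun i => toMat (ρ i) (stdBasis (ρ i))
  have hr : ∀ i, MatCont (r i) := fun i => matCont_toMat (ρ i) (stdBasis (ρ i))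
  have htr : ∀ i σ, φ i (τ σ) = (r i σ).trace := fun i σ => by
    rw [hτ i σ]; exact (trace_toMat (ρ i) _ σ).symm
  -- the certificate
  have := hloc i₀
  obtain ⟨g₀, h₀, hirr⟩ := exists_isUnit_cert (φ i₀) (r i₀) τ h2 (htr i₀) c hc hτc
    (span_toMat_eq_top (ρ i₀) habs _)
  -- the product
  let φ' : T →+* (∀ i, 𝒪 i) := RingHom.pi φ
  have hφ' : Function.Injective φ' := by
    rw [injective_iff_map_eq_zero]
    intro t ht
    exact hinj t fun i => congrFun ht i
  have hτ' : ∀ σ, φ' (τ σ) = (piRep r σ).trace := by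
    intro σ
    funext i
    rw [trace_piRep]
    exact htr i σ
  obtain ⟨Φ, ρm, -, -, hΦinj, hΦρ, htrρ, hJ⟩ :=
    exists_rep_of_traces φ' (piRep r) τ hφ' h2 hτ' c hc hτc g₀ h₀ hirr
  -- continuity
  have hcont : MatCont ρm := by
    intro n
    obtain ⟨m, hm⟩ := hcof n
    choose L hLfin hL using fun i => hr i m
    refine ⟨⨆ i, L i, IntermediateField.finiteDimensional_iSup_of_finite, fun σ hσ a b => ?_⟩
    apply hm
    have hσi : ∀ i, ∀ x ∈ L i, σ x = x := fun i x hx =>
      hσ x ((le_iSup L i) hx)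
    have key := hJ (Ideal.pi fun i => maximalIdeal (𝒪 i) ^ m) (ρm σ - 1) (by
      intro a' b'
      rw [map_sub, hΦρ, map_one, Ideal.mem_pi]
      intro i
      have := hL i σ (hσi i) a' b'
      rw [Matrix.sub_apply] at this ⊢
      rw [Pi.sub_apply, piRep_apply]
      convert this using 2
      rw [Matrix.one_apply, Matrix.one_apply]
      split_ifs <;> rfl) a b
    exact fun i => (Ideal.mem_pi _ _).1 key i
  refine ⟨ofMat ρm hcont, fun σ => ?_, fun σ hσ => ?_⟩
  · show LinearMap.trace T (Fin 2 → T) (matEnd ρm σ) = τ σ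
    rw [← htrρ σ]
    exact Matrix.trace_toLin'_eq (ρm σ)
  · have h1 : ρm σ = 1 := by
      apply hΦinj
      rw [hΦρ, map_one]
      ext a b i
      rw [piRep_apply]
      have : r i σ = 1 := by
        show toMat (ρ i) (stdBasis (ρ i)) σ = 1
        rw [toMat_apply, hσ i]
        exact LinearMap.toMatrix_one _
      rw [this, Matrix.one_apply, Matrix.one_apply]
      split_ifs <;> rfl
    show (Matrix.toLinAlgEquiv' (ρm σ) : Module.End T (Fin 2 → T)) = 1
    rw [h1, map_one]

end Glue

end Fermat.Agent.GB.B4.GlueRep
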