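/-
GATE-B / B4 (helper47): consumer forms of the gluing theorem.

* `exists_glue_of_finite` : `GlueRep.exists_glue` with the topology hypothesis discharged by
  `GlueCof.hcof_of_finite` (`T` noetherian, every `𝒪 i` a finite `T`-module).
* `isLocalHom_of_isIntegral` : an algebra homomorphism from an integral local algebra to a local
  algebra over a local base is local.
* `trace_eq_zero_of_mul_self_of_det` / `trace_eq_zero_of_involution` : an involution of
  determinant `-1` has trace `0` (oddness ⟹ the hypothesis `τ c = 0`).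
-/
import Fermat.Agent.GB.B4.GlueRep
import Fermat.Agent.GB.B4.GlueCof

set_option autoImplicit false

noncomputable section

namespace Fermat.Agent.GB.B4.GlueTop

open IsLocalRing Fermat.Agent.S53_helper35

/-- **Gluing, finite case.** As `GlueRep.exists_glue`, with `hcof` replaced by: `T` noetherian and
every `𝒪 i` finite over `T` (via `φ i`). -/
theorem exists_glue_of_finite {T : Type} [CommRing T] [IsLocalRing T] [IsNoetherianRing T]
    {ι : Type} [Fintype ι] (𝒪 : ι → Type) [∀ i, CommRing (𝒪 i)] [∀ i, IsLocalRing (𝒪 i)]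
    (φ : ∀ i, T →+* 𝒪 i) (hloc : ∀ i, IsLocalHom (φ i))
    (hfin : ∀ i, letI := (φ i).toAlgebra; Module.Finite T (𝒪 i))
    (hinj : ∀ t : T, (∀ i, φ i t = 0) → t = 0) (h2 : IsUnit (2 : T))
    (ρ : ∀ i, GaloisRepAdic (𝒪 i)) (τ : GQ → T) (hτ : ∀ i σ, φ i (τ σ) = (ρ i).trace σ)
    (c : GQ) (hc : c * c = 1) (hτc : τ c = 0)
    (i₀ : ι) (habs : (ρ i₀).residual.IsAbsolutelyIrreducible) :
    ∃ ρT : GaloisRepAdic T, (∀ σ, ρT.trace σ = τ σ) ∧
      (∀ σ, (∀ i, (ρ i).ρ σ = 1) → ρT.ρ σ = 1) :=
  GlueRep.exists_glue 𝒪 φ hloc hinj h2 ρ τ hτ c hc hτc i₀ habs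
    (GlueCof.hcof_of_finite 𝒪 φ hloc hfin hinj)

/-- An algebra homomorphism `ψ : T → B` of local rings over a local ring `𝒪`, with `T` integral
over `𝒪` and `𝒪 → B` local, is local. -/
theorem isLocalHom_of_isIntegral {𝒪 T B : Type*} [CommRing 𝒪] [IsLocalRing 𝒪] [CommRing T]
    [IsLocalRing T] [CommRing B] [IsLocalRing B] [Algebra 𝒪 T] [Algebra 𝒪 B]
    [Algebra.IsIntegral 𝒪 T] [IsLocalHom (algebraMap 𝒪 B)] (ψ : T →ₐ[𝒪] B) :
    IsLocalHom (ψ : T →+* B) := by
  -- the preimage of the maximal ideal of `B` is a maximal ideal of `T`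
  set P : Ideal T := (maximalIdeal B).comap (ψ : T →+* B) with hP
  have : P.IsPrime := Ideal.comap_isPrime _ _
  have hcomap : P.comap (algebraMap 𝒪 T) = maximalIdeal 𝒪 := by
    rw [hP, Ideal.comap_comap]
    have : (ψ : T →+* B).comp (algebraMap 𝒪 T) = algebraMap 𝒪 B := ψ.comp_algebraMap
    rw [this]
    exact ((local_hom_TFAE (algebraMap 𝒪 B)).out 0 4).mp ‹IsLocalHom (algebraMap 𝒪 B)›
  have hmax : P.IsMaximal :=
    Ideal.isMaximal_of_isIntegral_of_isMaximal_comap P
      (by rw [hcomap]; exact maximalIdeal.isMaximal 𝒪)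
  have hPeq : P = maximalIdeal T := IsLocalRing.eq_maximalIdeal hmax
  refine ⟨fun t ht => ?_⟩
  by_contra hnu
  have htm : t ∈ maximalIdeal T := (mem_maximalIdeal t).2 hnu
  rw [← hPeq, hP, Ideal.mem_comap] at htm
  exact (mem_maximalIdeal _).1 htm ht

/-- An involution of determinant `-1` in `M₂` over a commutative ring has trace zero. -/
theorem trace_eq_zero_of_mul_self_of_det {A : Type*} [CommRing A]
    (s : Matrix (Fin 2) (Fin 2) A) (hs : s * s = 1) (hdet : s.det = -1) : s.trace = 0 := by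
  -- Cayley–Hamilton: s² − tr(s) s + det(s) = 0
  have hCH : s * s - s.trace • s + s.det • (1 : Matrix (Fin 2) (Fin 2) A) = 0 := by
    ext i j
    fin_cases i <;> fin_cases j <;>
      simp [Matrix.mul_apply, Fin.sum_univ_two, Matrix.trace_fin_two, Matrix.det_fin_two] <;> ring
  rw [hs, hdet, neg_smul, one_smul, sub_add_eq_add_sub, add_neg_cancel, zero_sub, neg_eq_zero]
    at hCH
  -- multiply by `s`
  have h2 : s.trace • (s * s) = 0 := by
    rw [← smul_mul_assoc, hCH, zero_mul]
  rw [hs] at h2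
  have h3 := congrFun (congrFun h2 0) 0
  simpa using h3

/-- The trace of a `GaloisRepAdic` at an involution of determinant `-1` is zero. -/
theorem trace_eq_zero_of_involution {A : Type} [CommRing A] [IsLocalRing A] (ρ : GaloisRepAdic A)
    (c : GQ) (hc : c * c = 1) (hdet : LinearMap.det (ρ.ρ c) = -1) : ρ.trace c = 0 := by
  set b := stdBasis ρ
  have h1 : (toMat ρ b c).trace = ρ.trace c := GlueRep.trace_toMat ρ b c
  rw [← h1]
  apply trace_eq_zero_of_mul_self_of_det
  · rw [← map_mul, hc, map_one]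
  · rw [toMat_apply, LinearMap.det_toMatrix b]
    exact hdet

end Fermat.Agent.GB.B4.GlueTop
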