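/-
GATE-B / B4 (helper47): OUTPUT clauses for the glued representation.

* `span_eq_top_of_cert` : the unit certificate `τ(g₀h₀) − τ(g₀ch₀) + τ(cg₀h₀) − τ(cg₀ch₀)` forces
  the matrices of ANY representation with these traces to span `M₂(T)`.
* `isAbsolutelyIrreducible_of_span` : a residual representation whose operators span `End` is
  absolutely irreducible (easy converse of Burnside).
* `map_det_eq`, `map_charpoly_eq` : determinants and characteristic polynomials are determined by
  traces (`2` a unit).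
* `exists_glue_full` : `GlueTop.exists_glue_of_finite` with all output clauses.
-/
import Fermat.Agent.GB.B4.GlueTop
import Fermat.Agent.S53_helper35.MatDict2
import Fermat.Agent.S53_helper35.Wrappers

set_option autoImplicit false

noncomputable section

namespace Fermat.Agent.GB.B4.GlueOut

open IsLocalRing Fermat.Agent.S53_helper35 Fermat.Agent.GB.B4.GlueCore
open scoped TensorProduct

/-! ### The certificate forces spanning -/

section Cert

variable {T : Type*} [CommRing T]

/-- product of two "off-diagonal corners" of rank-one idempotents -/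
theorem sandwich {e f : Matrix (Fin 2) (Fin 2) T} (he : e * e = e) (hte : e.trace = 1)
    (hf : f * f = f) (z z' : Matrix (Fin 2) (Fin 2) T) :
    (e * z * f) * (f * z' * e) = (e * z * f * z').trace • e := by
  have h1 : (e * z * f) * (f * z' * e) = e * (z * f * z') * e := by
    have : f * (f * (z' * e)) = f * (z' * e) := by rw [← mul_assoc, hf]
    simp only [mul_assoc, this]
  rw [h1, corner he hte]
  congr 1
  simp only [mul_assoc]

variable {G : Type*} [Group G]

theorem adjoin_range_eq_top_of_cert (r : G →* Matrix (Fin 2) (Fin 2) T) (h2 : IsUnit (2 : T))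
    (c : G) (hc : c * c = 1) (htc : (r c).trace = 0) (g₀ h₀ : G)
    (hu : IsUnit ((r (g₀ * h₀)).trace - (r (g₀ * c * h₀)).trace + (r (c * g₀ * h₀)).trace
      - (r (c * g₀ * c * h₀)).trace)) :
    Algebra.adjoin T (Set.range r) = ⊤ := by
  obtain ⟨η, hη2⟩ := h2.exists_right_inv
  have hη : η * 2 = 1 := by rw [mul_comm]; exact hη2
  have hs : r c * r c = 1 := by rw [← map_mul, hc, map_one]
  obtain ⟨ep, hep⟩ : ∃ ep, ep = idem η (r c) 1 := ⟨_, rfl⟩
  obtain ⟨em, hem⟩ : ∃ em, em = idem η (r c) (-1) := ⟨_, rfl⟩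
  have hadd : ep + em = 1 := by rw [hep, hem]; exact idem_add hη
  have hep2 : ep * ep = ep := by rw [hep]; exact idem_mul_self hη hs 1 (one_mul 1)
  have hem2 : em * em = em := by rw [hem]; exact idem_mul_self hη hs (-1) (by ring)
  have htep : ep.trace = 1 := by rw [hep]; exact trace_idem hη htc 1
  have htem : em.trace = 1 := by rw [hem]; exact trace_idem hη htc (-1)
  -- the certificate as a trace
  obtain ⟨w, hw⟩ : ∃ w, w = (ep * r g₀ * em * r h₀).trace := ⟨_, rfl⟩
  have hwu : IsUnit w := by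
    have h := trace_idem_mul (RingHom.id T) r (fun g => (r g).trace) (fun _ => rfl) c η 1 (-1) g₀ h₀
    simp only [RingHom.id_apply, map_neg, map_one] at h
    rw [hw, hep, hem, h]
    have : η * η * ((r (g₀ * h₀)).trace + -1 * (r (g₀ * c * h₀)).trace
        + 1 * (r (c * g₀ * h₀)).trace + 1 * -1 * (r (c * g₀ * c * h₀)).trace)
        = η * η * ((r (g₀ * h₀)).trace - (r (g₀ * c * h₀)).trace + (r (c * g₀ * h₀)).trace
          - (r (c * g₀ * c * h₀)).trace) := by ring
    rw [this]
    have hηu : IsUnit η := IsUnit.of_mul_eq_one _ hη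
    exact (hηu.mul hηu).mul hu
  obtain ⟨winv, hwinv⟩ := hwu.exists_right_inv
  have hwinv' : winv * w = 1 := by rw [mul_comm]; exact hwinv
  obtain ⟨x, hx⟩ : ∃ x, x = ep * r g₀ * em := ⟨_, rfl⟩
  obtain ⟨y, hy⟩ : ∃ y, y = em * r h₀ * ep := ⟨_, rfl⟩
  have hxy : x * y = w • ep := by
    rw [hx, hy, sandwich hep2 htep hem2, hw]
  have hyx : y * x = w • em := by
    rw [hx, hy, sandwich hem2 htem hep2, hw]
    congr 1
    rw [mul_assoc (em * r h₀) ep (r g₀), Matrix.trace_mul_comm, ← mul_assoc]
  -- membership in the subalgebra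
  set 𝒜 := Algebra.adjoin T (Set.range r) with h𝒜
  have hr : ∀ g, r g ∈ 𝒜 := fun g => Algebra.subset_adjoin ⟨g, rfl⟩
  have hep𝒜 : ep ∈ 𝒜 := by
    rw [hep]; unfold idem
    exact 𝒜.smul_mem (𝒜.add_mem 𝒜.one_mem (𝒜.smul_mem (hr c) _)) _
  have hem𝒜 : em ∈ 𝒜 := by
    rw [hem]; unfold idem
    exact 𝒜.smul_mem (𝒜.add_mem 𝒜.one_mem (𝒜.smul_mem (hr c) _)) _
  have hx𝒜 : x ∈ 𝒜 := by rw [hx]; exact 𝒜.mul_mem (𝒜.mul_mem hep𝒜 (hr _)) hem𝒜
  have hy𝒜 : y ∈ 𝒜 := by rw [hy]; exact 𝒜.mul_mem (𝒜.mul_mem hem𝒜 (hr _)) hep𝒜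
  rw [eq_top_iff]
  intro M _
  have hM : M = ep * M * ep + ep * M * em + em * M * ep + em * M * em := by
    calc M = (ep + em) * M * (ep + em) := by rw [hadd, one_mul, mul_one]
      _ = ep * M * ep + ep * M * em + em * M * ep + em * M * em := by
        simp only [add_mul, mul_add]; abel
  have hemeq : em = winv • (y * x) := by rw [hyx, smul_smul, hwinv', one_smul]
  have hepeq : ep = winv • (x * y) := by rw [hxy, smul_smul, hwinv', one_smul]
  have t1 : ep * M * ep ∈ 𝒜 := by
    rw [corner hep2 htep]; exact 𝒜.smul_mem hep𝒜 _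
  have t4 : em * M * em ∈ 𝒜 := by
    rw [corner hem2 htem]; exact 𝒜.smul_mem hem𝒜 _
  have t2 : ep * M * em ∈ 𝒜 := by
    have h1 : ep * M * em = winv • ((ep * (M * em * r h₀) * ep) * x) := by
      conv_lhs => rw [hemeq]
      rw [mul_smul_comm]
      congr 1
      rw [hy]
      simp only [mul_assoc]
    rw [h1, corner hep2 htep, smul_mul_assoc]
    exact 𝒜.smul_mem (𝒜.smul_mem (𝒜.mul_mem hep𝒜 hx𝒜) _) _
  have t3 : em * M * ep ∈ 𝒜 := by
    have h1 : em * M * ep = winv • ((em * (M * ep * r g₀) * em) * y) := by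
      conv_lhs => rw [hepeq]
      rw [mul_smul_comm]
      congr 1
      rw [hx]
      simp only [mul_assoc]
    rw [h1, corner hem2 htem, smul_mul_assoc]
    exact 𝒜.smul_mem (𝒜.smul_mem (𝒜.mul_mem hem𝒜 hy𝒜) _) _
  rw [hM]
  exact 𝒜.add_mem (𝒜.add_mem (𝒜.add_mem t1 t2) t3) t4

/-- **The certificate forces spanning.** -/
theorem span_eq_top_of_cert (r : G →* Matrix (Fin 2) (Fin 2) T) (h2 : IsUnit (2 : T))
    (c : G) (hc : c * c = 1) (htc : (r c).trace = 0) (g₀ h₀ : G)
    (hu : IsUnit ((r (g₀ * h₀)).trace - (r (g₀ * c * h₀)).trace + (r (c * g₀ * h₀)).trace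
      - (r (c * g₀ * c * h₀)).trace)) :
    Submodule.span T (Set.range r) = ⊤ := by
  have h := adjoin_range_eq_top_of_cert r h2 c hc htc g₀ h₀ hu
  have h1 := Algebra.adjoin_eq_span T (Set.range r)
  have h2' : (Submonoid.closure (Set.range r) : Set (Matrix (Fin 2) (Fin 2) T)) = Set.range r := by
    have : Set.range r = (MonoidHom.mrange r : Set _) := by
      ext x; simp
    rw [this, Submonoid.closure_eq]
  rw [h2', h] at h1
  rw [← h1]
  rfl

end Cert

/-! ### Spanning forces absolute irreducibility -/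

section AbsIrr

variable {k : Type} [Field k]

/-- a residual representation whose operators span `End` is absolutely irreducible -/
theorem isAbsolutelyIrreducible_of_span (ρbar : ResidualGaloisRep k)
    (h : Submodule.span k (Set.range ρbar.ρ) = ⊤) : ρbar.IsAbsolutelyIrreducible := by
  classical
  intro W hW
  change Submodule (AlgebraicClosure k) (AlgebraicClosure k ⊗[k] ρbar.V) at W
  have hW' : ∀ σ : GQ, ∀ x ∈ W, (ρbar.ρ σ).baseChange (AlgebraicClosure k) x ∈ W := hW
  -- every endomorphism preserves `W`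
  have hall : ∀ f : Module.End k ρbar.V, ∀ x ∈ W,
      f.baseChange (AlgebraicClosure k) x ∈ W := by
    intro f
    have hf : f ∈ Submodule.span k (Set.range ρbar.ρ) := by rw [h]; trivial
    induction hf using Submodule.span_induction with
    | mem f hf =>
      obtain ⟨σ, rfl⟩ := hf
      exact hW' σ
    | zero =>
      intro x _
      rw [LinearMap.baseChange_zero, LinearMap.zero_apply]
      exact W.zero_mem
    | add f g _ _ hf hg =>
      intro x hx
      rw [LinearMap.baseChange_add, LinearMap.add_apply]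
      exact W.add_mem (hf x hx) (hg x hx)
    | smul a f _ hf =>
      intro x hx
      rw [LinearMap.baseChange_smul, LinearMap.smul_apply]
      exact W.smul_of_tower_mem a (hf x hx)
  by_cases hbot : W = ⊥
  · exact Or.inl hbot
  right
  obtain ⟨w, hwW, hw0⟩ := Submodule.exists_mem_ne_zero_of_ne_bot hbot
  let b : Module.Basis (Fin 2) k ρbar.V := Module.finBasisOfFinrankEq k ρbar.V ρbar.finrank_eq
  let B : Module.Basis (Fin 2) (AlgebraicClosure k) (AlgebraicClosure k ⊗[k] ρbar.V) :=
    Algebra.TensorProduct.basis (AlgebraicClosure k) b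
  obtain ⟨j, hj⟩ : ∃ j, B.repr w j ≠ 0 := by
    by_contra hcon
    simp only [not_exists, not_not] at hcon
    apply hw0
    apply B.repr.injective
    ext j
    rw [hcon j, map_zero, Finsupp.zero_apply]
  have hBi : ∀ i, B i ∈ W := by
    intro i
    let f : Module.End k ρbar.V := (b.coord j).smulRight (b i)
    have hfB : ∀ l, f.baseChange (AlgebraicClosure k) (B l) = if l = j then B i else 0 := by
      intro l
      rw [Algebra.TensorProduct.basis_apply, LinearMap.baseChange_tmul]
      show (1 : AlgebraicClosure k) ⊗ₜ[k] ((b.coord j) (b l) • b i) = _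
      rw [Module.Basis.coord_apply, Module.Basis.repr_self, Finsupp.single_apply]
      by_cases hlj : l = j
      · rw [if_pos hlj, if_pos hlj, one_smul, Algebra.TensorProduct.basis_apply]
      · rw [if_neg hlj, if_neg hlj, zero_smul, TensorProduct.tmul_zero]
    have hfw : f.baseChange (AlgebraicClosure k) w = (B.repr w j) • B i := by
      conv_lhs => rw [← B.sum_repr w]
      rw [map_sum]
      simp only [map_smul, hfB, smul_ite, smul_zero]
      rw [Finset.sum_ite_eq' Finset.univ j]
      simp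
    have := hall f w hwW
    rw [hfw] at this
    exact (W.smul_mem_iff hj).1 this
  rw [eq_top_iff, ← B.span_eq, Submodule.span_le]
  rintro _ ⟨i, rfl⟩
  exact hBi i

/-- matrix form -/
theorem isAbsolutelyIrreducible_of_span_toMatRes (ρbar : ResidualGaloisRep k)
    (b : Module.Basis (Fin 2) k ρbar.V)
    (h : Submodule.span k (Set.range (toMatRes ρbar b)) = ⊤) : ρbar.IsAbsolutelyIrreducible := by
  apply isAbsolutelyIrreducible_of_span
  let e : Matrix (Fin 2) (Fin 2) k →ₗ[k] Module.End k ρbar.V :=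
    ((LinearMap.toMatrix b b).symm : Matrix (Fin 2) (Fin 2) k →ₗ[k] Module.End k ρbar.V)
  have he : Function.Surjective e := (LinearMap.toMatrix b b).symm.surjective
  have hrange : Set.range ρbar.ρ = e '' Set.range (toMatRes ρbar b) := by
    ext f
    constructor
    · rintro ⟨σ, rfl⟩
      refine ⟨toMatRes ρbar b σ, ⟨σ, rfl⟩, ?_⟩
      rw [toMatRes_apply]
      exact (LinearMap.toMatrix b b).symm_apply_apply _
    · rintro ⟨_, ⟨σ, rfl⟩, rfl⟩
      refine ⟨σ, ?_⟩
      rw [toMatRes_apply]
      exact ((LinearMap.toMatrix b b).symm_apply_apply _).symm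
  have h2 := Submodule.map_span e (Set.range (toMatRes ρbar b))
  rw [h, Submodule.map_top, LinearMap.range_eq_top.mpr he] at h2
  rw [hrange]
  exact h2.symm

/-- adic form: if the matrices of `ρ` span `M₂(A)`, the residual representation is absolutely
irreducible -/
theorem residual_isAbsolutelyIrreducible_of_span {A : Type} [CommRing A] [IsLocalRing A]
    (ρ : GaloisRepAdic A) (b : Module.Basis (Fin 2) A ρ.V)
    (h : Submodule.span A (Set.range (toMat ρ b)) = ⊤) :
    ρ.residual.IsAbsolutelyIrreducible := by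
  apply isAbsolutelyIrreducible_of_span_toMatRes ρ.residual (resBasis ρ b)
  rw [toMatRes_residual]
  exact span_range_mapMat_eq_top (IsLocalRing.residue A) h

end AbsIrr

/-! ### Determinants and characteristic polynomials from traces -/

section Det

theorem two_mul_det_fin_two {A : Type*} [CommRing A] (M : Matrix (Fin 2) (Fin 2) A) :
    2 * M.det = M.trace ^ 2 - (M * M).trace := by
  simp only [Matrix.det_fin_two, Matrix.trace_fin_two, Matrix.mul_apply, Fin.sum_univ_two]
  ring

variable {T A : Type} [CommRing T] [IsLocalRing T] [CommRing A] [IsLocalRing A]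

theorem two_mul_det_rep (ρ : GaloisRepAdic A) (σ : GQ) :
    2 * LinearMap.det (ρ.ρ σ) = ρ.trace σ ^ 2 - ρ.trace (σ * σ) := by
  rw [det_eq_det_toMat ρ (stdBasis ρ), two_mul_det_fin_two, ← map_mul,
    GlueRep.trace_toMat, GlueRep.trace_toMat]

/-- determinants are determined by traces -/
theorem map_det_eq (φ : T →+* A) (h2 : IsUnit (2 : A)) (ρT : GaloisRepAdic T)
    (ρ : GaloisRepAdic A) (htr : ∀ σ, φ (ρT.trace σ) = ρ.trace σ) (σ : GQ) :
    φ (LinearMap.det (ρT.ρ σ)) = LinearMap.det (ρ.ρ σ) := by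
  apply h2.mul_left_cancel
  rw [two_mul_det_rep ρ σ, ← htr, ← htr, ← map_pow, ← map_sub, ← two_mul_det_rep ρT σ, map_mul,
    map_ofNat]

/-- characteristic polynomials are determined by traces -/
theorem map_charpoly_eq (φ : T →+* A) (h2 : IsUnit (2 : A)) (ρT : GaloisRepAdic T)
    (ρ : GaloisRepAdic A) (htr : ∀ σ, φ (ρT.trace σ) = ρ.trace σ) (σ : GQ) :
    (LinearMap.charpoly (ρT.ρ σ)).map φ = LinearMap.charpoly (ρ.ρ σ) := by
  rw [charpoly_eq_charpoly_toMat ρT (stdBasis ρT), charpoly_eq_charpoly_toMat ρ (stdBasis ρ),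
    Matrix.charpoly_fin_two, Matrix.charpoly_fin_two]
  simp only [Polynomial.map_add, Polynomial.map_sub, Polynomial.map_mul, Polynomial.map_pow,
    Polynomial.map_X, Polynomial.map_C]
  rw [GlueRep.trace_toMat, GlueRep.trace_toMat, ← det_eq_det_toMat, ← det_eq_det_toMat, htr,
    map_det_eq φ h2 ρT ρ htr]

/-- the characteristic polynomial of a rank-two representation -/
theorem charpoly_eq (ρ : GaloisRepAdic A) (σ : GQ) :
    LinearMap.charpoly (ρ.ρ σ) = Polynomial.X ^ 2 - Polynomial.C (ρ.trace σ) * Polynomial.X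
      + Polynomial.C (LinearMap.det (ρ.ρ σ)) := by
  rw [charpoly_eq_charpoly_toMat ρ (stdBasis ρ), Matrix.charpoly_fin_two, GlueRep.trace_toMat,
    ← det_eq_det_toMat]

end Det

/-! ### The gluing theorem with all output clauses -/

section Full

open Polynomial

variable {T : Type} [CommRing T] {ι : Type}
  (𝒪 : ι → Type) [∀ i, CommRing (𝒪 i)]

/-- joint injectivity on polynomials -/
theorem polynomial_eq_of_forall_map_eq (φ : ∀ i, T →+* 𝒪 i)
    (hinj : ∀ t : T, (∀ i, φ i t = 0) → t = 0) (p q : T[X])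
    (h : ∀ i, p.map (φ i) = q.map (φ i)) : p = q := by
  ext n
  rw [← sub_eq_zero]
  apply hinj
  intro i
  rw [map_sub, ← Polynomial.coeff_map, ← Polynomial.coeff_map, h i, sub_self]

variable [IsLocalRing T] [IsNoetherianRing T] [Fintype ι] [∀ i, IsLocalRing (𝒪 i)]

/-- **Gluing, consumer form.** `T` noetherian local with `2 ∈ Tˣ`; finitely many local rings `𝒪 i`,
finite over `T` through local homomorphisms `φ i`, jointly injective; representations `ρ i` over
`𝒪 i` whose traces are the images of ONE function `τ : G_ℚ → T`; an involution `c` with `τ c = 0`;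
ONE `ρ i₀` residually absolutely irreducible.  THEN there is `ρT : GaloisRepAdic T` with
* trace `τ`;
* `ρT σ = 1` whenever all `ρ i σ = 1`; in particular `ρT` is unramified wherever all `ρ i` are;
* characteristic polynomials and determinants compatible with every `φ i`, for ALL `σ`;
* `charpoly (ρT σ) = X² − t X + d` as soon as this holds at every point;
* absolutely irreducible residual representation. -/
theorem exists_glue_full (φ : ∀ i, T →+* 𝒪 i) (hloc : ∀ i, IsLocalHom (φ i))
    (hfin : ∀ i, letI := (φ i).toAlgebra; Module.Finite T (𝒪 i))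
    (hinj : ∀ t : T, (∀ i, φ i t = 0) → t = 0) (h2 : IsUnit (2 : T))
    (ρ : ∀ i, GaloisRepAdic (𝒪 i)) (τ : GQ → T) (hτ : ∀ i σ, φ i (τ σ) = (ρ i).trace σ)
    (c : GQ) (hc : c * c = 1) (hτc : τ c = 0)
    (i₀ : ι) (habs : (ρ i₀).residual.IsAbsolutelyIrreducible) :
    ∃ ρT : GaloisRepAdic T, (∀ σ, ρT.trace σ = τ σ) ∧
      (∀ σ, (∀ i, (ρ i).ρ σ = 1) → ρT.ρ σ = 1) ∧
      (∀ q : ℕ, (∀ i, (ρ i).IsUnramifiedAt q) → ρT.IsUnramifiedAt q) ∧
      (∀ i σ, (LinearMap.charpoly (ρT.ρ σ)).map (φ i) = LinearMap.charpoly ((ρ i).ρ σ)) ∧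
      (∀ i σ, φ i (LinearMap.det (ρT.ρ σ)) = LinearMap.det ((ρ i).ρ σ)) ∧
      (∀ (σ : GQ) (t d : T),
        (∀ i, LinearMap.charpoly ((ρ i).ρ σ) = X ^ 2 - C (φ i t) * X + C (φ i d)) →
          LinearMap.charpoly (ρT.ρ σ) = X ^ 2 - C t * X + C d) ∧
      ρT.residual.IsAbsolutelyIrreducible := by
  obtain ⟨ρT, htr, hker⟩ := GlueTop.exists_glue_of_finite 𝒪 φ hloc hfin hinj h2 ρ τ hτ c hc hτc
    i₀ habs
  have h2i : ∀ i, IsUnit (2 : 𝒪 i) := fun i => by
    have := h2.map (φ i)
    rwa [map_ofNat] at this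
  have htr' : ∀ i σ, φ i (ρT.trace σ) = (ρ i).trace σ := fun i σ => by rw [htr, hτ]
  have hcp : ∀ i σ, (LinearMap.charpoly (ρT.ρ σ)).map (φ i) = LinearMap.charpoly ((ρ i).ρ σ) :=
    fun i σ => map_charpoly_eq (φ i) (h2i i) ρT (ρ i) (htr' i) σ
  refine ⟨ρT, htr, hker, ?_, hcp, ?_, ?_, ?_⟩
  · intro q hq P hP σ hσ
    exact hker σ fun i => hq i P hP σ hσ
  · intro i σ
    exact map_det_eq (φ i) (h2i i) ρT (ρ i) (htr' i) σ
  · intro σ t d h
    apply polynomial_eq_of_forall_map_eq 𝒪 φ hinj
    intro i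
    rw [hcp i σ, h i]
    simp only [Polynomial.map_add, Polynomial.map_sub, Polynomial.map_mul, Polynomial.map_pow,
      Polynomial.map_X, Polynomial.map_C]
  · have := hloc i₀
    obtain ⟨g₀, h₀, hu⟩ := GlueRep.exists_isUnit_cert (φ i₀)
      (toMat (ρ i₀) (stdBasis (ρ i₀))) τ h2
      (fun g => by rw [hτ i₀ g]; exact (GlueRep.trace_toMat _ _ g).symm) c hc hτc
      (GlueRep.span_toMat_eq_top (ρ i₀) habs _)
    apply residual_isAbsolutelyIrreducible_of_span ρT (stdBasis ρT)
    apply span_eq_top_of_cert (toMat ρT (stdBasis ρT)) h2 c hc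
      (by rw [GlueRep.trace_toMat, htr, hτc]) g₀ h₀
    simp only [GlueRep.trace_toMat, htr]
    exact hu

end Full

end Fermat.Agent.GB.B4.GlueOut
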